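import Mathlib
import Fermat.Agent.LT.T7.Level2
import Fermat.Agent.LT.T7.H83.IwKit
import Fermat.Agent.LT.T2.H886.CuspAlg

/-!
# Row LT, tower T7: translation operators on cusp functions (helper426, asset for the leaves
# `OpDown*` of level 2)

OFF-MAIN.  No hole, nothing assumed.  ADDITIVE (new names only, all ending in `426`).

`trOp426 T κ ψ = κ ∑_{t ∈ T} ψ(· t)` for a finite set `T` of elements which are trivial at
infinity: the operators `iwOp w H` and `shiftOp z k` of `T7/Level2.lean` are of this form.  For a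
cusp function `ψ` of level `𝔫` and ANY `K_∞`-type `τ` the function `trOp426 T κ ψ` is a cusp
function of the same level and type as soon as it is right invariant under `U(𝔫)`
(`isCuspFn_trOp426`; cuspidality of finite sums: asset helper886 `T2/H886/CuspAlg.lean`).
The Iwahori operator at a place `u ∣ 𝔫` and the shift by a scalar uniformiser at `u` preserve
the right invariance under `U(𝔫)` and under the Iwahori subgroup at `u`
(`iwOp_levelInv426`, `shiftOp_levelInv426`, `isIwInvAt_shiftOp426`; Iwahori kit of helper83),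
and the shift does not depend on the uniformiser on Iwahori-invariant functions
(`shiftOp_indep426`).
-/

set_option autoImplicit false

open AutomorphicForm IsDedekindDomain NumberField MeasureTheory
open scoped ComplexConjugate

noncomputable section

namespace Fermat.Agent.LT.T7.H426

open Fermat.Agent.LT.H556 Fermat.Agent.LT.H556.A0 Fermat.Agent.LT.T7 Fermat.Agent.LT.H129
  Fermat.Agent.LT.T7.H83

attribute [local instance] Fermat.Agent.LT.T5.instMeasurableSpaceG

variable {K : Type} [Field K] [NumberField K]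

/-! ## 1. Commutation -/

/-- An element which is trivial at the finite places commutes with an element which is trivial at
the infinite places. -/
theorem comm_inf_fin426 {t k : G K} (ht : ∀ w : InfinitePlace K, TrivAtInf w t)
    (hk : ∀ v : HeightOneSpectrum (𝓞 K), TrivAtFin v k) : k * t = t * k := by
  apply G_ext129
  · intro w
    rw [map_mul, map_mul, (trivAtInf_iff129 w t).1 (ht w), mul_one, one_mul]
  · intro v
    rw [map_mul, map_mul, (trivAtFin_iff129 v k).1 (hk v), mul_one, one_mul]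

/-! ## 2. The translation operators -/

/-- `ψ ↦ κ ∑_{t ∈ T} ψ(· t)`. -/
def trOp426 (T : Finset (G K)) (κ : ℂ) (ψ : G K → ℂ) : G K → ℂ :=
  fun x => κ * ∑ t ∈ T, ψ (x * t)

theorem trOp_apply426 (T : Finset (G K)) (κ : ℂ) (ψ : G K → ℂ) (x : G K) :
    trOp426 T κ ψ x = κ * ∑ t ∈ T, ψ (x * t) := rfl

theorem iwOp_eq_trOp426 (w : HeightOneSpectrum (𝓞 K)) (H : Finset (G K)) (ψ : G K → ℂ) :
    iwOp w H ψ = trOp426 H (((Real.sqrt (Ideal.absNorm w.asIdeal : ℝ) : ℝ) : ℂ)⁻¹) ψ := rfl

theorem shiftOp_apply426 (z : G K) (k : ℤ) (ψ : G K → ℂ) (x : G K) :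
    shiftOp z k ψ x = ψ (x * z ^ k) := rfl

open scoped Classical in
theorem shiftOp_eq_trOp426 (z : G K) (k : ℤ) (ψ : G K → ℂ) :
    shiftOp z k ψ = trOp426 {z ^ k} 1 ψ := by
  funext x
  rw [trOp_apply426, Finset.sum_singleton, one_mul]
  rfl

theorem continuous_trOp426 {ψ : G K → ℂ} (hψ : Continuous ψ) (T : Finset (G K)) (κ : ℂ) :
    Continuous (trOp426 T κ ψ) :=
  continuous_const.mul (continuous_finsetSum _ fun t _ => hψ.comp (continuous_mul_const t))

theorem bdd_sum426 {ψ : G K → ℂ} {C : ℝ} (hb : ∀ g, ‖ψ g‖ ≤ C) (T : Finset (G K)) (x : G K) :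
    ‖∑ t ∈ T, ψ (x * t)‖ ≤ T.card * C := by
  refine (norm_sum_le _ _).trans ?_
  calc ∑ t ∈ T, ‖ψ (x * t)‖ ≤ ∑ _t ∈ T, C := Finset.sum_le_sum fun t _ => hb _
    _ = T.card * C := by rw [Finset.sum_const, nsmul_eq_mul]

theorem bdd_trOp426 {ψ : G K → ℂ} (hb : ∃ C : ℝ, ∀ g, ‖ψ g‖ ≤ C) (T : Finset (G K)) (κ : ℂ) :
    ∃ C : ℝ, ∀ g, ‖trOp426 T κ ψ g‖ ≤ C := by
  obtain ⟨C, hC⟩ := hb
  refine ⟨‖κ‖ * (T.card * C), fun g => ?_⟩
  rw [trOp_apply426, norm_mul]
  exact mul_le_mul_of_nonneg_left (bdd_sum426 hC T g) (norm_nonneg _)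

open scoped Classical in
/-- Finite sums of right translates of a continuous bounded cuspidal function are cuspidal. -/
theorem isCuspidalFn_sum426 {ψ : G K → ℂ} (hc : Continuous ψ) {C : ℝ} (hb : ∀ g, ‖ψ g‖ ≤ C)
    (hcusp : IsCuspidalFn ψ) (T : Finset (G K)) :
    IsCuspidalFn (fun x => ∑ t ∈ T, ψ (x * t)) := by
  induction T using Finset.induction_on with
  | empty =>
    have e : (fun x : G K => ∑ t ∈ (∅ : Finset (G K)), ψ (x * t)) = fun _ => (0 : ℂ) := by
      funext x
      exact Finset.sum_empty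
    rw [e]
    exact T2.H886.isCuspidalFn_zero886
  | insert a s ha ih =>
    have e : (fun x : G K => ∑ t ∈ insert a s, ψ (x * t))
        = fun x => ψ (x * a) + ∑ t ∈ s, ψ (x * t) := by
      funext x
      exact Finset.sum_insert ha
    rw [e]
    exact T2.H886.isCuspidalFn_add886 (hc.comp (continuous_mul_const a)) (C := C)
      (fun g => hb _)
      (continuous_finsetSum _ fun t _ => hc.comp (continuous_mul_const t))
      (C' := s.card * C) (fun g => bdd_sum426 hb s g)
      (T2.H886.isCuspidalFn_shift886 a hcusp) ih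

theorem isCuspidalFn_trOp426 {ψ : G K → ℂ} (hc : Continuous ψ) (hb : ∃ C : ℝ, ∀ g, ‖ψ g‖ ≤ C)
    (hcusp : IsCuspidalFn ψ) (T : Finset (G K)) (κ : ℂ) : IsCuspidalFn (trOp426 T κ ψ) := by
  obtain ⟨C, hC⟩ := hb
  exact T2.H886.isCuspidalFn_const_mul886 κ (isCuspidalFn_sum426 hc hC hcusp T)

/-- **Cusp functions are preserved** by the translation operators whose members are trivial at
infinity, as soon as the image is right invariant under the level group. -/
theorem isCuspFn_trOp426 {𝔫 : Ideal (𝓞 K)} {τ : G K → ℂ} {r : G K} {ψ : G K → ℂ}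
    (hr : T5.IsRayGen r) (hψ : T5.IsCuspFn 𝔫 τ r ψ) (T : Finset (G K)) (κ : ℂ)
    (hT : ∀ t ∈ T, ∀ w : InfinitePlace K, TrivAtInf w t)
    (hlev : ∀ u : G K, InLevelGroup 𝔫 u → ∀ g : G K, trOp426 T κ ψ (g * u) = trOp426 T κ ψ g) :
    T5.IsCuspFn 𝔫 τ r (trOp426 T κ ψ) where
  cont := continuous_trOp426 hψ.cont T κ
  bdd := bdd_trOp426 hψ.bdd T κ
  aut :=
    { left_inv := fun γ g => by
        rw [trOp_apply426, trOp_apply426]
        congr 1
        refine Finset.sum_congr rfl fun t _ => ?_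
        rw [mul_assoc]
        exact hψ.aut.left_inv γ (g * t)
      level_inv := hlev
      arch_compact := fun w k hk g => by
        rw [trOp_apply426, trOp_apply426, Finset.mul_sum, Finset.mul_sum, Finset.mul_sum]
        refine Finset.sum_congr rfl fun t ht => ?_
        rw [mul_assoc, comm_inf_fin426 (hT t ht) hk.1.2, ← mul_assoc,
          hψ.aut.arch_compact w k hk (g * t)]
        ring
      ray := fun g => by
        rw [trOp_apply426, trOp_apply426]
        congr 1
        refine Finset.sum_congr rfl fun t ht => ?_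
        rw [mul_assoc, comm_inf_fin426 (hT t ht) hr.1, ← mul_assoc]
        exact hψ.aut.ray (g * t) }
  cuspidal := isCuspidalFn_trOp426 hψ.cont hψ.bdd hψ.cuspidal T κ

/-! ## 3. The level group at a place dividing the level -/

theorem isClosed_lt_one426 (v : HeightOneSpectrum (𝓞 K)) :
    IsClosed {x : v.adicCompletion K | Valued.v x < 1} := by
  have h := AddSubgroup.isClosed_of_isOpen
    (Valuation.ltAddSubgroup (Valued.v : Valuation (v.adicCompletion K) _) 1) ?_
  · convert h using 1
    ext x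
    simp
  · have e : ((Valuation.ltAddSubgroup (Valued.v : Valuation (v.adicCompletion K) _) 1 :
        AddSubgroup (v.adicCompletion K)) : Set (v.adicCompletion K)) = Metric.ball 0 1 := by
      ext x
      simp [Valued.toNormedField.norm_lt_one_iff]
    rw [e]
    exact Metric.isOpen_ball

/-- The closure of an ideal contained in the prime of `u` lies in the maximal ideal at `u`. -/
theorem val_lt_one_of_mem_idealClosure426 {𝔫 : Ideal (𝓞 K)} {u : HeightOneSpectrum (𝓞 K)}
    (hu : u.asIdeal ∣ 𝔫) {x : u.adicCompletion K} (hx : x ∈ idealClosure 𝔫 u) :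
    Valued.v x < 1 := by
  refine closure_minimal ?_ (isClosed_lt_one426 u) hx
  rintro _ ⟨a, ha, rfl⟩
  have key : Valued.v (algebraMap K (u.adicCompletion K) (algebraMap (𝓞 K) K a))
      = u.valuation K (algebraMap (𝓞 K) K a) :=
    HeightOneSpectrum.valuedAdicCompletion_eq_valuation' u _
  show Valued.v (algebraMap K (u.adicCompletion K) (algebraMap (𝓞 K) K a)) < 1
  rw [key, HeightOneSpectrum.valuation_lt_one_iff_mem]
  exact Ideal.le_of_dvd hu ha

theorem zero_mem_idealClosure426 (𝔫 : Ideal (𝓞 K)) (v : HeightOneSpectrum (𝓞 K)) :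
    (0 : v.adicCompletion K) ∈ idealClosure 𝔫 v :=
  subset_closure ⟨0, 𝔫.zero_mem, by simp⟩

/-- `U(𝔫)` lies in the Iwahori subgroup at every place dividing `𝔫`. -/
theorem inIwahori_of_inLevelGroup426 {𝔫 : Ideal (𝓞 K)} {u : HeightOneSpectrum (𝓞 K)}
    (hu : u.asIdeal ∣ 𝔫) {k : G K} (hk : InLevelGroup 𝔫 k) : T5.InIwahori u k := by
  have key : ∀ M : Matrix (Fin 2) (Fin 2) (u.adicCompletion K),
      (∀ i j, (M - 1) i j ∈ idealClosure 𝔫 u) →
      ∀ i j, M i j ∈ u.adicCompletionIntegers K := by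
    intro M hM i j
    have h1 := val_lt_one_of_mem_idealClosure426 hu (hM i j)
    rw [HeightOneSpectrum.mem_adicCompletionIntegers]
    have e : M i j = (M - 1) i j + (1 : Matrix (Fin 2) (Fin 2) (u.adicCompletion K)) i j := by
      simp
    rw [e]
    refine le_trans (Valuation.map_add _ _ _) (max_le h1.le ?_)
    by_cases hij : i = j
    · subst hij
      simp
    · simp [Matrix.one_apply_ne hij]
  refine ⟨key _ fun i j => (hk.2 u i j).1, key _ fun i j => (hk.2 u i j).2, ?_⟩
  have := val_lt_one_of_mem_idealClosure426 hu (hk.2 u 1 0).1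
  simpa using this

theorem finComp_congr426 {v : HeightOneSpectrum (𝓞 K)} {g h : G K}
    (e : finCompHom129 v g = finCompHom129 v h) : finComp v g = finComp v h := by
  rw [← coe_finCompHom129, ← coe_finCompHom129, e]

/-- An element of `U(𝔫)` is the product of its component at `u` and of an element of `U(𝔫)`
which is trivial at `u`. -/
theorem exists_split426 {𝔫 : Ideal (𝓞 K)} {u : HeightOneSpectrum (𝓞 K)}
    (hu : u.asIdeal ∣ 𝔫) {k : G K} (hk : InLevelGroup 𝔫 k) :
    ∃ a b : G K, k = a * b ∧ IsLocalAtFin u a ∧ T5.InIwahori u a ∧ TrivAtFin u b ∧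
      InLevelGroup 𝔫 b := by
  have ha : IsLocalAtFin u (locFin129 u (finCompHom129 u k)) := isLocalAtFin_locFin129 u _
  have ha' := (isLocalAtFin_iff129 u _).1 ha
  refine ⟨locFin129 u (finCompHom129 u k), (locFin129 u (finCompHom129 u k))⁻¹ * k,
    by group, ha, ?_, ?_, ?_⟩
  · refine inIwahori_congr83 u (g := k) ?_ (inIwahori_of_inLevelGroup426 hu hk)
    rw [finComp_locFin129]
    rfl
  · rw [trivAtFin_iff129, map_mul, map_inv, finCompHom129_locFin129, inv_mul_cancel]
  · refine ⟨fun w => ?_, fun v i j => ?_⟩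
    · rw [trivAtInf_iff129, map_mul, map_inv, ha'.1 w, inv_one, one_mul]
      exact (trivAtInf_iff129 w k).1 (hk.1 w)
    · by_cases hv : v = u
      · subst hv
        have e1 : finComp v ((locFin129 v (finCompHom129 v k))⁻¹ * k) = finComp v 1 :=
          finComp_congr426 (by
            rw [map_mul, map_inv, finCompHom129_locFin129, inv_mul_cancel, map_one])
        have e2 : finComp v ((locFin129 v (finCompHom129 v k))⁻¹ * k)⁻¹ = finComp v 1 :=
          finComp_congr426 (by
            rw [map_inv, map_mul, map_inv, finCompHom129_locFin129, inv_mul_cancel, inv_one,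
              map_one])
        have e3 : finComp v (1 : G K) = 1 := (trivAtFin_iff129 v 1).2 (map_one _)
        rw [e1, e2, e3, sub_self]
        exact ⟨zero_mem_idealClosure426 𝔫 v, zero_mem_idealClosure426 𝔫 v⟩
      · have e1 : finComp v ((locFin129 u (finCompHom129 u k))⁻¹ * k) = finComp v k :=
          finComp_congr426 (by rw [map_mul, map_inv, ha'.2 v hv, inv_one, one_mul])
        have e2 : finComp v ((locFin129 u (finCompHom129 u k))⁻¹ * k)⁻¹ = finComp v k⁻¹ :=
          finComp_congr426 (by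
            rw [map_inv, map_mul, map_inv, ha'.2 v hv, inv_one, one_mul, map_inv])
        rw [e1, e2]
        exact hk.2 v i j

/-! ## 4. The Iwahori operator and the shift at a place dividing the level -/

theorem isIwInvAt_iff426 {u : HeightOneSpectrum (𝓞 K)} {ψ : G K → ℂ} :
    IsIwInv 1 (fun _ => u) ψ ↔ IsIwInvAt u ψ :=
  ⟨fun h => isIwInvAt_of_isIwInv83 (o := fun _ => u) h (j := 0) zero_lt_one,
    fun h a h1 h2 h3 x => h a ⟨h1, fun v' hv' => h2 v' fun _ _ => hv'⟩ (h3 0 zero_lt_one) x⟩

/-- The Iwahori operator at `u ∣ 𝔫` preserves the right invariance under `U(𝔫)` (on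
Iwahori-invariant functions). -/
theorem iwOp_levelInv426 {𝔫 : Ideal (𝓞 K)} {u : HeightOneSpectrum (𝓞 K)}
    (hu : u.asIdeal ∣ 𝔫) {H : Finset (G K)} (hH : IsIwCosetSystem u H) {ψ : G K → ℂ}
    (hlev : ∀ k : G K, InLevelGroup 𝔫 k → ∀ g : G K, ψ (g * k) = ψ g) (hiw : IsIwInvAt u ψ)
    (k : G K) (hk : InLevelGroup 𝔫 k) (g : G K) : iwOp u H ψ (g * k) = iwOp u H ψ g := by
  obtain ⟨a, b, rfl, ha, haI, hb, hbL⟩ := exists_split426 hu hk
  rw [← mul_assoc, iwOp_mul_right83 u (fun h hh => (hH.2.1 h hh).1) hb ψ (g * a)]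
  have e : (fun y => ψ (y * b)) = ψ := funext fun y => hlev b hbL y
  rw [e]
  exact iwOp_isIwInvAt83 u hH hiw a ha haI g

/-- A scalar uniformiser is central. -/
theorem central_of_scalar426 {u : HeightOneSpectrum (𝓞 K)} {z : G K}
    (hz : IsScalarUniformizerAt u z) (g : G K) : Commute z g := by
  obtain ⟨hloc, c, -, hzc⟩ := hz
  rw [isLocalAtFin_iff129] at hloc
  apply G_ext129
  · intro w
    rw [map_mul, map_mul, hloc.1 w, one_mul, mul_one]
  · intro v
    by_cases hv : v = u
    · subst hv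
      apply Units.ext
      rw [map_mul, map_mul, Units.val_mul, Units.val_mul, coe_finCompHom129, coe_finCompHom129,
        hzc]
      ext i j
      rw [Matrix.diagonal_mul, Matrix.mul_diagonal, mul_comm]
    · rw [map_mul, map_mul, hloc.2 v hv, one_mul, mul_one]

theorem shiftOp_mul_right426 {u : HeightOneSpectrum (𝓞 K)} {z : G K}
    (hz : IsScalarUniformizerAt u z) (k : ℤ) (ψ : G K → ℂ) (g h : G K) :
    shiftOp z k ψ (g * h) = ψ (g * z ^ k * h) := by
  show ψ (g * h * z ^ k) = ψ (g * z ^ k * h)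
  rw [mul_assoc, ← ((central_of_scalar426 hz h).zpow_left k).eq, ← mul_assoc]

/-- The shift preserves every right invariance. -/
theorem shiftOp_inv426 {u : HeightOneSpectrum (𝓞 K)} {z : G K}
    (hz : IsScalarUniformizerAt u z) (k : ℤ) {ψ : G K → ℂ} {h : G K}
    (hh : ∀ y : G K, ψ (y * h) = ψ y) (g : G K) :
    shiftOp z k ψ (g * h) = shiftOp z k ψ g := by
  rw [shiftOp_mul_right426 hz, hh]
  rfl

theorem isIwInvAt_shiftOp426 {u : HeightOneSpectrum (𝓞 K)} {z : G K}
    (hz : IsScalarUniformizerAt u z) (k : ℤ) {ψ : G K → ℂ} (hiw : IsIwInvAt u ψ) :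
    IsIwInvAt u (shiftOp z k ψ) :=
  fun a ha haI x => shiftOp_inv426 hz k (fun y => hiw a ha haI y) x

theorem isLocalAtFin_zpow426 {u : HeightOneSpectrum (𝓞 K)} {z : G K} (hz : IsLocalAtFin u z)
    (k : ℤ) : IsLocalAtFin u (z ^ k) := by
  rw [isLocalAtFin_iff129] at *
  exact ⟨fun w => by rw [map_zpow, hz.1 w, one_zpow],
    fun v' hv => by rw [map_zpow, hz.2 v' hv, one_zpow]⟩

theorem inv_zpow_of_inv426 {ψ : G K → ℂ} {e : G K} (he : ∀ y : G K, ψ (y * e) = ψ y) (k : ℤ)
    (y : G K) : ψ (y * e ^ k) = ψ y := by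
  induction k using Int.induction_on generalizing y with
  | zero => rw [zpow_zero, mul_one]
  | succ n ih => rw [zpow_add_one, ← mul_assoc, he, ih]
  | pred n ih =>
    rw [zpow_sub_one, ← mul_assoc, ← he (y * e ^ (-(n : ℤ)) * e⁻¹), inv_mul_cancel_right, ih]

/-- **The shift does not depend on the scalar uniformiser** on Iwahori-invariant functions. -/
theorem shiftOp_indep426 {u : HeightOneSpectrum (𝓞 K)} {z z' : G K}
    (hz : IsScalarUniformizerAt u z) (hz' : IsScalarUniformizerAt u z') {ψ : G K → ℂ}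
    (hiw : IsIwInvAt u ψ) (k : ℤ) : shiftOp z k ψ = shiftOp z' k ψ := by
  have hloc : IsLocalAtFin u (z⁻¹ * z') := isLocalAtFin_mul129 (isLocalAtFin_inv129 hz.1) hz'.1
  obtain ⟨c, hc, hzc⟩ := hz.2
  obtain ⟨c', hc', hzc'⟩ := hz'.2
  have hc0 : c ≠ 0 := by
    intro h
    rw [h, map_zero] at hc
    exact (WithZero.exp_ne_zero).symm hc
  have hmat : ((finCompHom129 u (z⁻¹ * z') : GL (Fin 2) (u.adicCompletion K)) :
      Matrix (Fin 2) (Fin 2) (u.adicCompletion K)) = Matrix.diagonal fun _ => c⁻¹ * c' := by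
    have h1 : ((finCompHom129 u z⁻¹ : GL (Fin 2) (u.adicCompletion K)) :
        Matrix (Fin 2) (Fin 2) (u.adicCompletion K)) = Matrix.diagonal fun _ => c⁻¹ := by
      have h2 : ((finCompHom129 u z⁻¹ : GL (Fin 2) (u.adicCompletion K)) :
          Matrix (Fin 2) (Fin 2) (u.adicCompletion K))
          * (Matrix.diagonal fun _ => c) = 1 := by
        rw [← hzc, ← coe_finCompHom129, ← Units.val_mul, ← map_mul, inv_mul_cancel, map_one]
        rfl
      have h3 : (Matrix.diagonal fun _ : Fin 2 => c) * (Matrix.diagonal fun _ => c⁻¹)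
          = (1 : Matrix (Fin 2) (Fin 2) (u.adicCompletion K)) := by
        rw [Matrix.diagonal_mul_diagonal]
        simp [mul_inv_cancel₀ hc0]
      calc ((finCompHom129 u z⁻¹ : GL (Fin 2) (u.adicCompletion K)) :
            Matrix (Fin 2) (Fin 2) (u.adicCompletion K))
          = ((finCompHom129 u z⁻¹ : GL (Fin 2) (u.adicCompletion K)) :
            Matrix (Fin 2) (Fin 2) (u.adicCompletion K))
              * ((Matrix.diagonal fun _ : Fin 2 => c) * (Matrix.diagonal fun _ => c⁻¹)) := by
            rw [h3, mul_one]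
        _ = Matrix.diagonal fun _ => c⁻¹ := by rw [← mul_assoc, h2, one_mul]
    rw [map_mul, Units.val_mul, h1, coe_finCompHom129, hzc', Matrix.diagonal_mul_diagonal]
  have hval : Valued.v (c⁻¹ * c') = 1 := by
    rw [map_mul, map_inv₀, hc, hc']
    exact inv_mul_cancel₀ WithZero.exp_ne_zero
  have hI : T5.InIwahori u (z⁻¹ * z') := by
    rw [inIwahori_iff83]
    refine ⟨fun i j => ?_, ?_, ?_⟩
    · rw [hmat, Matrix.diagonal_apply]
      split_ifs
      · exact hval.le
      · rw [map_zero]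
        exact zero_le_one
    · rw [hmat, Matrix.det_diagonal, Fin.prod_univ_two, map_mul, hval, mul_one]
    · rw [hmat, Matrix.diagonal_apply_ne _ (by decide), map_zero]
      exact zero_lt_one
  have hcomm : Commute z (z⁻¹ * z') := central_of_scalar426 hz _
  funext x
  show ψ (x * z ^ k) = ψ (x * z' ^ k)
  have e : z' ^ k = z ^ k * (z⁻¹ * z') ^ k := by
    rw [← hcomm.mul_zpow, mul_inv_cancel_left]
  rw [e, ← mul_assoc, inv_zpow_of_inv426 (fun y => hiw _ hloc hI y)]

end Fermat.Agent.LT.T7.H426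

end
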