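import Mathlib
import Fermat.Agent.LT.T7.H732.SupplyQFamSpec
import Fermat.Agent.LT.T7.H922.ClassComm
import Fermat.Agent.LT.T2.H472.LocCont
import Fermat.Agent.LT.T7.H426.TrOp

/-!
# Row LT, tower T7, leaf T7.L2Q.1.F5 `OpDownQC732` (helper426, registry row 2318)

OFF-MAIN.  No hole, nothing assumed.  ADDITIVE (new names only, all ending in `426`).

    opDownQC426 (F) : H732.OpDownQC732 F            (VERBATIM, unconditional)

Spec: `T7/H732/SupplyQFamSpec.lean` (helper732@d2eb0c98b, sha256 7e4f04b4), byte-identical copy.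

## Proof

`R(f n X k m) ψ = R(F₁ n X) (Z_E^k 𝒰_E^m (R(f₂ n) ψ))` (operator formulas of helper922,
`T7/H922/FamOps.lean`), `(E.H, E.z)` the coset system of the pre-data.  The operators `𝒰`, `Z^k`
do not depend on the coset system on Iwahori-invariant functions (kit of helper83 and
`shiftOp_indep426`), and they PRESERVE the eigen-classes `L2Q.IsEigFnQ n 𝔫 r u · c`
(`isEigFnQ_iwOp426`, `isEigFnQ_shiftOp426`: translations by elements supported at `u ∣ 𝔫` commute
with the `K_∞`-type, the ray, the positive scalars, the Hecke operators at the `v ∤ 𝔫` and the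
circle means; cuspidality of finite sums: helper886; continuity of the circles: helper472).
Hence `dn1_op` applies to `Z^k 𝒰^m (R(f₂ n) ψ)`, and `dn2_comm` moves `R(f₂ n)` back to the left.
-/

set_option autoImplicit false

open AutomorphicForm IsDedekindDomain NumberField MeasureTheory
open scoped ComplexConjugate

noncomputable section

namespace Fermat.Agent.LT.T7.H426

open Fermat.Agent.LT.H556 Fermat.Agent.LT.H556.A0 Fermat.Agent.LT.T7 Fermat.Agent.LT.T7.L2Q
  Fermat.Agent.LT.T7.H893 Fermat.Agent.LT.T7.H962 Fermat.Agent.LT.T7.H732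
  Fermat.Agent.LT.H129 Fermat.Agent.LT.T7.H83 Fermat.Agent.LT.T7.H922 Fermat.Agent.LT.H670

attribute [local instance] Fermat.Agent.LT.T5.instMeasurableSpaceG

/-! ## 1. The circles are continuous -/

theorem continuous_rotY_torus426 (t : ℝ) (i j : Fin 2) :
    Continuous fun θ : ℝ => (rotY θ * torus t) i j := by
  have h : Continuous fun θ : ℝ => rotY θ := by
    refine continuous_matrix fun a b => ?_
    fin_cases a <;> fin_cases b <;> simp [rotY] <;> fun_prop
  exact (h.matrix_mul continuous_const).matrix_elem i j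

theorem continuous_rotC_torus426 (t : ℝ) (i j : Fin 2) :
    Continuous fun θ : ℝ => (QOut.rotC θ * torus t) i j := by
  have h : Continuous fun θ : ℝ => QOut.rotC θ := by
    refine continuous_matrix fun a b => ?_
    fin_cases a <;> fin_cases b <;> simp [QOut.rotC] <;> fun_prop
  exact (h.matrix_mul continuous_const).matrix_elem i j

/-- A family of elements supported at the infinite place with prescribed continuous components
is continuous. -/
theorem continuous_family426 {w : InfinitePlace ℚ} {Y : ℝ → G ℚ}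
    {M : ℝ → Matrix (Fin 2) (Fin 2) ℂ} (hM : ∀ i j, Continuous fun θ => M θ i j)
    (hY : ∀ θ : ℝ, IsLocalAtInf w (Y θ) ∧ infComp w (Y θ) = M θ) : Continuous Y := by
  refine T2.H472.locCont472 ℚ w ℝ Y (fun θ => (hY θ).1) fun i j => ?_
  have e : (fun θ => infComp w (Y θ) i j) = fun θ => M θ i j := by
    funext θ
    rw [(hY θ).2]
  rw [e]
  exact hM i j

/-! ## 2. The translation operators preserve the eigen-classes over `ℚ` -/

section Eig

variable {n : QWt} {𝔫 : Ideal (𝓞 ℚ)} {r : G ℚ} {u : HeightOneSpectrum (𝓞 ℚ)}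

theorem isWFnQ_trOp426 {ψ : G ℚ → ℂ} (hr : T5.IsRayGen r) (hψ : IsWFnQ n 𝔫 r u ψ)
    (T : Finset (G ℚ)) (κ : ℂ) (hT : ∀ t ∈ T, IsLocalAtFin u t)
    (hlev : ∀ k : G ℚ, InLevelGroup 𝔫 k → ∀ g : G ℚ, trOp426 T κ ψ (g * k) = trOp426 T κ ψ g)
    (hiw : IsIwInvAt u (trOp426 T κ ψ)) : IsWFnQ n 𝔫 r u (trOp426 T κ ψ) where
  cusp := isCuspFn_trOp426 hr hψ.cusp T κ (fun t ht => (hT t ht).1) hlev
  arch_scalar := fun w z hz g => by
    rw [trOp_apply426, trOp_apply426]
    congr 1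
    refine Finset.sum_congr rfl fun t ht => ?_
    rw [mul_assoc, comm_inf_fin426 (hT t ht).1 hz.1.2, ← mul_assoc]
    exact hψ.arch_scalar w z hz (g * t)
  iw := isIwInvAt_iff426.2 hiw

theorem intervalIntegral_trOp426 {ψ : G ℚ → ℂ} (hc : Continuous ψ) (T : Finset (G ℚ)) (κ : ℂ)
    (hT : ∀ t ∈ T, ∀ w : InfinitePlace ℚ, TrivAtInf w t) {Y : ℝ → G ℚ} (hYc : Continuous Y)
    (hYf : ∀ θ (v : HeightOneSpectrum (𝓞 ℚ)), TrivAtFin v (Y θ)) {e : ℝ → ℂ}
    (he : Continuous e) (g : G ℚ) (a b : ℝ) :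
    (∫ θ in a..b, e θ * trOp426 T κ ψ (g * Y θ))
      = κ * ∑ t ∈ T, ∫ θ in a..b, e θ * ψ (g * t * Y θ) := by
  have e1 : (fun θ => e θ * trOp426 T κ ψ (g * Y θ))
      = fun θ => κ * ∑ t ∈ T, e θ * ψ (g * t * Y θ) := by
    funext θ
    rw [trOp_apply426, Finset.mul_sum, Finset.mul_sum, Finset.mul_sum]
    refine Finset.sum_congr rfl fun t ht => ?_
    have e2 : g * Y θ * t = g * t * Y θ := by
      rw [mul_assoc, comm_inf_fin426 (hT t ht) (hYf θ), ← mul_assoc]
    rw [e2]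
    ring
  rw [e1, intervalIntegral.integral_const_mul, intervalIntegral.integral_finsetSum]
  intro t _
  exact (he.mul (hc.comp (continuous_const.mul hYc))).intervalIntegrable a b

/-- **The translation operators supported at `u ∣ 𝔫` preserve the eigen-classes.** -/
theorem isEigFnQ_trOp426 {ψ : G ℚ → ℂ} {c : EigData ℚ} (hr : T5.IsRayGen r)
    (hu : u.asIdeal ∣ 𝔫) (hψ : IsEigFnQ n 𝔫 r u ψ c)
    (T : Finset (G ℚ)) (κ : ℂ) (hT : ∀ t ∈ T, IsLocalAtFin u t)
    (hlev : ∀ k : G ℚ, InLevelGroup 𝔫 k → ∀ g : G ℚ, trOp426 T κ ψ (g * k) = trOp426 T κ ψ g)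
    (hiw : IsIwInvAt u (trOp426 T κ ψ)) : IsEigFnQ n 𝔫 r u (trOp426 T κ ψ) c where
  inv := isWFnQ_trOp426 hr hψ.inv T κ hT hlev hiw
  hecke := fun v hv => by
    have hvu : v ≠ u := fun e => hv (e ▸ hu)
    obtain ⟨h1, h2⟩ := hψ.hecke v hv
    refine ⟨fun H hH g => ?_, fun z hz g => ?_⟩
    · have e1 : ∀ h ∈ H, trOp426 T κ ψ (g * h) = κ * ∑ t ∈ T, ψ (g * t * h) := by
        intro h hh
        rw [trOp_apply426]
        congr 1
        refine Finset.sum_congr rfl fun t ht => ?_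
        rw [mul_assoc, mul_comm_of_local83 v (hH.2.1 h hh).1 ((hT t ht).2 v hvu), ← mul_assoc]
      rw [Finset.sum_congr rfl e1, ← Finset.mul_sum, Finset.sum_comm,
        Finset.sum_congr rfl fun t _ => h1 H hH (g * t), ← Finset.mul_sum, trOp_apply426]
      ring
    · rw [trOp_apply426, trOp_apply426]
      have e1 : ∀ t ∈ T, ψ (g * z * t) = c.b v * ψ (g * t) := by
        intro t ht
        rw [mul_assoc, mul_comm_of_local83 v hz.1 ((hT t ht).2 v hvu), ← mul_assoc]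
        exact h2 z hz (g * t)
      rw [Finset.sum_congr rfl e1, ← Finset.mul_sum]
      ring
  mean := fun w => by
    have hTi : ∀ t ∈ T, ∀ w : InfinitePlace ℚ, TrivAtInf w t := fun t ht => (hT t ht).1
    have hm := hψ.mean w
    cases n with
    | w0 =>
      intro t ht Y hY g
      have hYc : Continuous Y := continuous_family426 (continuous_rotY_torus426 t) hY
      have key := intervalIntegral_trOp426 hψ.inv.cusp.cont T κ hTi hYc
        (fun θ v => (hY θ).1.2 v) (e := fun _ => (1 : ℂ)) continuous_const g 0 (2 * Real.pi)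
      simp only [one_mul] at key
      rw [key, Finset.sum_congr rfl fun s _ => hm t ht Y hY (g * s), ← Finset.mul_sum,
        trOp_apply426]
      ring
    | w1 =>
      intro t ht Y hY g
      have hYc : Continuous Y := continuous_family426 (continuous_rotC_torus426 t) hY
      have key := intervalIntegral_trOp426 hψ.inv.cusp.cont T κ hTi hYc
        (fun θ v => (hY θ).1.2 v)
        (e := fun θ : ℝ => Complex.exp (-(Complex.I * ((θ : ℝ) : ℂ)))) (by fun_prop) g 0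
        (2 * Real.pi)
      rw [key, Finset.sum_congr rfl fun s _ => hm t ht Y hY (g * s), ← Finset.mul_sum,
        trOp_apply426]
      ring

theorem isEigFnQ_iwOp426 {ψ : G ℚ → ℂ} {c : EigData ℚ} (hr : T5.IsRayGen r)
    (hu : u.asIdeal ∣ 𝔫) (hψ : IsEigFnQ n 𝔫 r u ψ c) {H : Finset (G ℚ)}
    (hH : IsIwCosetSystem u H) : IsEigFnQ n 𝔫 r u (iwOp u H ψ) c := by
  have hiw : IsIwInvAt u ψ := isIwInvAt_iff426.1 hψ.inv.iw
  rw [iwOp_eq_trOp426]
  refine isEigFnQ_trOp426 hr hu hψ H _ (fun h hh => (hH.2.1 h hh).1) ?_ ?_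
  · intro k hk g
    exact iwOp_levelInv426 hu hH hψ.inv.cusp.aut.level_inv hiw k hk g
  · exact iwOp_isIwInvAt83 u hH hiw

theorem isEigFnQ_iwOp_iter426 {ψ : G ℚ → ℂ} {c : EigData ℚ} (hr : T5.IsRayGen r)
    (hu : u.asIdeal ∣ 𝔫) (hψ : IsEigFnQ n 𝔫 r u ψ c) {H : Finset (G ℚ)}
    (hH : IsIwCosetSystem u H) (m : ℕ) : IsEigFnQ n 𝔫 r u ((iwOp u H)^[m] ψ) c := by
  induction m with
  | zero => exact hψ
  | succ m ih =>
    rw [Function.iterate_succ_apply']
    exact isEigFnQ_iwOp426 hr hu ih hH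

theorem isEigFnQ_shiftOp426 {ψ : G ℚ → ℂ} {c : EigData ℚ} (hr : T5.IsRayGen r)
    (hu : u.asIdeal ∣ 𝔫) (hψ : IsEigFnQ n 𝔫 r u ψ c) {z : G ℚ}
    (hz : IsScalarUniformizerAt u z) (k : ℤ) : IsEigFnQ n 𝔫 r u (shiftOp z k ψ) c := by
  have hiw : IsIwInvAt u ψ := isIwInvAt_iff426.1 hψ.inv.iw
  have h1 : ∀ a : G ℚ, InLevelGroup 𝔫 a → ∀ g : G ℚ,
      shiftOp z k ψ (g * a) = shiftOp z k ψ g := fun a ha g =>
    shiftOp_inv426 hz k (fun y => hψ.inv.cusp.aut.level_inv a ha y) g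
  have h2 : IsIwInvAt u (shiftOp z k ψ) := isIwInvAt_shiftOp426 hz k hiw
  rw [shiftOp_eq_trOp426] at h1 h2 ⊢
  refine isEigFnQ_trOp426 hr hu hψ _ _ (fun t ht => ?_) h1 h2
  rw [Finset.mem_singleton] at ht
  rw [ht]
  exact isLocalAtFin_zpow426 hz.1 k

end Eig

/-! ## 3. The leaf -/

section Leaf

attribute [local instance] Fermat.Agent.LT.T7.H922.borelSpaceG922

variable (F : Type) [Field F] [NumberField F]

/-- `R(f₂ n)` commutes with the iterates of the Iwahori operator on the eigen-classes. -/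
theorem rconv_iwOp_iter426 {Φ : HeckeEigensystem F ℂ} {B : L2QBase962 F}
    (hB : IsL2QBase962 Φ B) {g : G F} {E : L2QPre732 F} (hE : IsL2QPre732 Φ B g E) (n : QWt)
    {ψ : G ℚ → ℂ} {c : EigData ℚ} (hψ : IsEigFnQ n E.𝔫 B.R.r B.u ψ c) {H : Finset (G ℚ)}
    {z : G ℚ} (hH : IsIwCosetSystem B.u H) (hz : IsScalarUniformizerAt B.u z) (m : ℕ) :
    T5.Rconv B.R.μ (E.f₂ n) ((iwOp B.u H)^[m] ψ)
      = (iwOp B.u H)^[m] (T5.Rconv B.R.μ (E.f₂ n) ψ) := by
  induction m with
  | zero => rfl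
  | succ m ih =>
    rw [Function.iterate_succ_apply', Function.iterate_succ_apply', ← ih]
    exact funext (hE.dn2_comm n _
      (isEigFnQ_iwOp_iter426 hB.frame.ray hE.u_level hψ hH m).inv H z hH hz).1

/-- **LEAF T7.L2Q.1.F5 = OP-DOWN over `ℚ`, both types** (`H732.OpDownQC732`, verbatim). -/
theorem opDownQC426 : OpDownQC732 F := by
  intro Φ B hB g _ E hE n X k m hX ψ c C hψ hBC H z hH hz x
  have hHaar : B.R.μ.IsHaarMeasure := hB.frame.frame.haar
  have hr : T5.IsRayGen B.R.r := hB.frame.ray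
  have hu : B.u.asIdeal ∣ E.𝔫 := hE.u_level
  have hnil : ∀ x ∈ ([] : List (Gen F)), x.Out B.S' := fun x hx => by simp at hx
  have h1X := hE.dn1_test n X hX
  have h1n := hE.dn1_test n [] hnil
  have h2 := hE.dn2_test n
  have hψc : Continuous ψ := hψ.inv.cusp.cont
  -- the eigen-classes
  have hm : IsEigFnQ n E.𝔫 B.R.r B.u ((iwOp B.u H)^[m] ψ) c :=
    isEigFnQ_iwOp_iter426 hr hu hψ hH m
  have hψ' : IsEigFnQ n E.𝔫 B.R.r B.u (shiftOp z k ((iwOp B.u H)^[m] ψ)) c :=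
    isEigFnQ_shiftOp426 hr hu hm hz k
  have hχ₀ : IsEigFnQ n E.𝔫 B.R.r B.u (T5.Rconv B.R.μ (E.f₂ n) ψ) c := hE.dn2_class n ψ c hψ
  have hiw₀ : IsIwInvAt B.u (T5.Rconv B.R.μ (E.f₂ n) ψ) := isIwInvAt_iff426.1 hχ₀.inv.iw
  -- the operator of the regular member, for the coset system of the pre-data
  have e1 : T5.Rconv B.R.μ (regL B.u E.z E.H k m (E.f₂ n)) ψ
      = T5.Rconv B.R.μ (E.f₂ n) (shiftOp z k ((iwOp B.u H)^[m] ψ)) := by
    rw [rconv_regL922 B.R.μ h2.cont h2.supp hψc B.u E.z E.H k m,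
      iwOp_iterate_indep83 B.u hE.sys hH hiw₀ m,
      shiftOp_indep426 hE.unif hz (iwOp_iterate_isIwInvAt83 B.u hH hiw₀ m) k,
      ← rconv_iwOp_iter426 F hB hE n hψ hH hz m]
    exact (funext ((hE.dn2_comm n _ hm.inv H z hH hz).2 k)).symm
  -- the left side
  have eL : T5.Rconv B.R.μ (E.down B n X k m) ψ x
      = T5.Rconv B.R.μ (E.F₁ n X)
          (T5.Rconv B.R.μ (E.f₂ n) (shiftOp z k ((iwOp B.u H)^[m] ψ))) x := by
    rw [← e1]
    exact rconv_conv922 B.R.μ h1X.cont h1X.supp (continuous_regL922 h2.cont B.u E.z E.H k m)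
      (hasCompactSupport_regL922 h2.supp B.u E.z E.H k m) hψc x
  -- the right side
  have eR : T5.Rconv B.R.μ (E.down B n [] 0 0) (shiftOp z k ((iwOp B.u H)^[m] ψ)) x
      = T5.Rconv B.R.μ (E.F₁ n [])
          (T5.Rconv B.R.μ (E.f₂ n) (shiftOp z k ((iwOp B.u H)^[m] ψ))) x := by
    show T5.Rconv B.R.μ (T5.conv B.R.μ (E.F₁ n []) (regL B.u E.z E.H 0 0 (E.f₂ n)))
      (shiftOp z k ((iwOp B.u H)^[m] ψ)) x = _
    rw [regL_zero922]
    exact rconv_conv922 B.R.μ h1n.cont h1n.supp h2.cont h2.supp hψ'.inv.cusp.cont x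
  rw [eL, eR]
  exact hE.dn1_op n X hX _ c C (hE.dn2_class n _ c hψ') hBC x

end Leaf

end Fermat.Agent.LT.T7.H426

end
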